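/-
P-MW row 821 (MW-A1-ART-iii), helper65: the algebraic residue theorem from its two parts.

`algResidueAssembly : TraceIntegralStatement → TraceResidueStatement → AlgResidueStatement`.

Proof.  Apply ART-i to `y` and to `y⁻¹` (the fields `K(y)` and `K(y⁻¹)` agree, and the
ramification indices of `y` and `y⁻¹` agree at the places where `y` is a unit): the trace of `G`
is `P(y) = Q(y⁻¹)`, so `P(0) = Q(0)` as `y` is transcendental.  ART-ii for `y` and `y⁻¹` computes
`P(0)` as the sum over the zeros and `Q(0)` as minus the sum over the poles.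
-/
import Mathlib
import Fermat.Agent.H84.MWDiv.Interfaces3
import Fermat.Agent.H19.RH.RamIdx

set_option autoImplicit false
set_option linter.style.haveILetI false

noncomputable section

open AlgebraicCurve IntermediateField Polynomial

namespace Fermat.Agent.H65.MWDiv

open Fermat.Agent.H27.ESD (ramIdx RiemannPackage)
open Fermat.Agent.H84.MWDiv

section General

variable {K F : Type*} [Field K] [Field F] [Algebra K F]

/-- The ramification indices of `y` and `y⁻¹` agree at the places where `y` is a unit. -/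
theorem art_ramIdx_inv (v : Place K F) (hdeg : v.deg = 1) {y : F} (hy : Transcendental K y)
    (h0 : v.ord y = 0) : ramIdx y⁻¹ v = ramIdx y v := by
  rcases Fermat.Agent.H19.rh_place_cases v hdeg hy with h | ⟨c, hc⟩
  · omega
  · have hc0 : c ≠ 0 := by
      rintro rfl
      rw [map_zero, sub_zero] at hc
      omega
    have hy0 : y ≠ 0 := by
      rintro rfl
      exact hy (isAlgebraic_zero)
    have hyc : y - algebraMap K F c ≠ 0 := by
      intro h
      rw [h, Place.ord_zero] at hc
      exact lt_irrefl _ hc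
    have hcF : algebraMap K F c ≠ 0 := by
      rw [Ne, map_eq_zero]
      exact hc0
    have key : v.ord (y⁻¹ - algebraMap K F c⁻¹) = v.ord (y - algebraMap K F c) := by
      have h1 : y⁻¹ - algebraMap K F c⁻¹ =
          -(y - algebraMap K F c) * (algebraMap K F c * y)⁻¹ := by
        rw [map_inv₀]
        field_simp
        ring
      rw [h1, v.ord_mul (neg_ne_zero.mpr hyc) (inv_ne_zero (mul_ne_zero hcF hy0)),
        Fermat.Agent.H23.ord_neg, v.ord_inv, v.ord_mul hcF hy0, Fermat.Agent.H23.ord_algebraMap,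
        h0]
      simp
    have hc' : 0 < v.ord (y⁻¹ - algebraMap K F c⁻¹) := by rw [key]; exact hc
    rw [Fermat.Agent.H19.rh_ramIdx_of_ord_sub_pos v hc,
      Fermat.Agent.H19.rh_ramIdx_of_ord_sub_pos v hc', key]

/-- The trace does not depend on the presentation of the base field. -/
theorem art_trace_congr {E₁ E₂ : IntermediateField K F} (h : E₁ = E₂) (G : F) :
    algebraMap E₁ F (Algebra.trace E₁ F G) = algebraMap E₂ F (Algebra.trace E₂ F G) := by
  subst h
  rfl

theorem art_finite_congr {E₁ E₂ : IntermediateField K F} (h : E₁ = E₂)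
    (hfin : FiniteDimensional E₁ F) : FiniteDimensional E₂ F := by
  subst h
  exact hfin

/-- `K(y⁻¹) = K(y)`. -/
theorem art_adjoin_inv (y : F) : K⟮y⁻¹⟯ = K⟮y⟯ := by
  apply le_antisymm
  · rw [adjoin_simple_le_iff]
    exact inv_mem (mem_adjoin_simple_self K y)
  · rw [adjoin_simple_le_iff]
    have h := inv_mem (mem_adjoin_simple_self K y⁻¹)
    rwa [inv_inv] at h

/-- If `P(y) = Q(y⁻¹)` with `y` transcendental, then `P(0) = Q(0)`. -/
theorem art_eval_zero_eq {y : F} (hy : Transcendental K y) (P Q : Polynomial K)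
    (h : Polynomial.aeval y P = Polynomial.aeval y⁻¹ Q) : P.eval 0 = Q.eval 0 := by
  have hy0 : y ≠ 0 := by
    rintro rfl
    exact hy (isAlgebraic_zero)
  letI : Invertible y⁻¹ := invertibleOfNonzero (inv_ne_zero hy0)
  have hinv : ⅟(y⁻¹) = y := by rw [invOf_eq_inv, inv_inv]
  have h1 := Polynomial.eval₂_reflect_mul_pow (algebraMap K F) y⁻¹ Q.natDegree Q le_rfl
  rw [hinv] at h1
  have h2 : Polynomial.aeval y (P * Polynomial.X ^ Q.natDegree) =
      Polynomial.aeval y (Polynomial.reflect Q.natDegree Q) := by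
    rw [map_mul, map_pow, Polynomial.aeval_X, h, Polynomial.aeval_def, Polynomial.aeval_def,
      ← h1, mul_assoc, ← mul_pow, inv_mul_cancel₀ hy0, one_pow, mul_one]
  have h3 := (transcendental_iff_injective.mp hy) h2
  have h4 : (P * Polynomial.X ^ Q.natDegree).coeff Q.natDegree =
      (Polynomial.reflect Q.natDegree Q).coeff Q.natDegree := by rw [h3]
  rw [Polynomial.coeff_reflect, Polynomial.revAt_le le_rfl, Nat.sub_self] at h4
  have h5 := Polynomial.coeff_mul_X_pow P Q.natDegree 0
  rw [zero_add] at h5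
  rw [h5] at h4
  rw [← Polynomial.coeff_zero_eq_eval_zero, ← Polynomial.coeff_zero_eq_eval_zero]
  exact h4

end General

/-- **MW-A1-ART-iii.** The algebraic residue theorem from its two parts. -/
theorem algResidueAssembly : AlgResidueAssemblyStatement := by
  intro hI hR K F _ _ _ _ _ g hRP y hy hfin G c hsupp hother
  have hy0 : y ≠ 0 := by
    rintro rfl
    exact hy (isAlgebraic_zero)
  have hyi : Transcendental K y⁻¹ := fun h => hy (IsAlgebraic.inv_iff.mp h)
  have hadj : K⟮y⁻¹⟯ = K⟮y⟯ := art_adjoin_inv y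
  haveI hfin' : FiniteDimensional K⟮y⁻¹⟯ F := art_finite_congr hadj.symm hfin
  -- ART-i for `y`
  obtain ⟨P, hP⟩ := hI K F g hRP y hy hfin G (by
    intro v hv
    rcases eq_or_lt_of_le hv with h | h
    · exact hother v h.symm
    · have h1 := (hsupp v h.ne').1
      have h2 := Fermat.Agent.H19.rh_ramIdx_pos v (hRP.deg_one v) hy
      omega)
  -- ART-i for `y⁻¹`
  obtain ⟨Q, hQ⟩ := hI K F g hRP y⁻¹ hyi hfin' G (by
    intro v hv
    rw [v.ord_inv] at hv
    rcases eq_or_lt_of_le hv with h | h
    · have h0 : v.ord y = 0 := by omega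
      rw [art_ramIdx_inv v (hRP.deg_one v) hy h0]
      exact hother v h0
    · have h1 := (hsupp v (by omega)).1
      have h2 := Fermat.Agent.H19.rh_ramIdx_pos v (hRP.deg_one v) hyi
      omega)
  -- the two polynomials have the same constant term
  have hPQ : P.eval 0 = Q.eval 0 := by
    apply art_eval_zero_eq hy
    rw [← hP, ← hQ]
    exact (art_trace_congr hadj G).symm
  -- ART-ii for `y` and `y⁻¹`
  have hZ := hR K F g hRP y hy hfin G c P (fun v hv => hsupp v hv.ne') hP
  have hPl := hR K F g hRP y⁻¹ hyi hfin' G c Q (fun v hv => hsupp v (by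
    rw [v.ord_inv] at hv
    omega)) hQ
  -- finiteness of the support
  obtain ⟨D, hD, -⟩ := hRP.principal.exists_divisor y hy0
  have hfinS : {v : Place K F | v.ord y ≠ 0}.Finite := by
    apply D.support.finite_toSet.subset
    intro v hv
    rw [Finset.mem_coe, Finsupp.mem_support_iff, hD v]
    exact hv
  have hZfin : {v : Place K F | 0 < v.ord y}.Finite :=
    hfinS.subset (fun v hv => ne_of_gt hv)
  have hPfin : {v : Place K F | 0 < v.ord y⁻¹}.Finite :=
    hfinS.subset (fun v hv => by
      have hv' : 0 < v.ord y⁻¹ := hv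
      rw [v.ord_inv] at hv'
      show v.ord y ≠ 0
      omega)
  have hunion : {v : Place K F | v.ord y ≠ 0} =
      {v : Place K F | 0 < v.ord y} ∪ {v : Place K F | 0 < v.ord y⁻¹} := by
    ext v
    simp only [Set.mem_ofPred_eq, Set.mem_union, v.ord_inv]
    omega
  have hdisj : Disjoint {v : Place K F | 0 < v.ord y} {v : Place K F | 0 < v.ord y⁻¹} := by
    rw [Set.disjoint_left]
    intro v hv hv'
    have h1 : 0 < v.ord y := hv
    have h2 : 0 < v.ord y⁻¹ := hv'
    rw [v.ord_inv] at h2
    omega
  rw [hunion, finsum_mem_union hdisj hZfin hPfin, ← hZ]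
  have hneg : ∑ᶠ v ∈ {v : Place K F | 0 < v.ord y⁻¹}, ((v.ord y : ℤ) : K) * c v =
      -∑ᶠ v ∈ {v : Place K F | 0 < v.ord y⁻¹}, ((v.ord y⁻¹ : ℤ) : K) * c v := by
    rw [← finsum_mem_neg_distrib _ hPfin]
    apply finsum_mem_congr rfl
    intro v _
    rw [v.ord_inv]
    push_cast
    ring
  rw [hneg, ← hPl, hPQ]
  ring

end Fermat.Agent.H65.MWDiv
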