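/-
P-MW row 722 (MW-A1-UNI), helper65: the character of a multiplicative function can be made
unitary.

`unitary (hRP : RealPeriodStatement N) : UnitaryStatement N`.

Proof.  `r γ = log ‖χ γ‖` is a real parabolic homomorphism, so `r = Im Per_η` for a cusp form
`η` (REALPER).  Let `Φ` be the Eichler integral of `η` (landed S21-A) and `E = exp (i Φ)`:
holomorphic without zeros, `E (γ z) = exp (i Per_η γ) E z`, with a nonzero limit at every cusp.
`F * E` has the same divisor as `F` (`isMultFn_mul`) and the character `χ ψ`, `ψ = exp (i Per_η)`,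
of absolute value `‖χ γ‖ exp (- Im Per_η γ) = 1`.
-/
import Mathlib
import Fermat.Agent.H84.MWDiv.Interfaces
import Fermat.Agent.H63.S21A
import Fermat.Agent.H97.ParabolicPeriod
import Fermat.Agent.H82.CuspMero
import Fermat.Agent.H61.GenAn1

set_option autoImplicit false
set_option linter.style.haveILetI false

noncomputable section

open AlgebraicCurve UpperHalfPlane Filter Topology Function
open ModularCurve ModularCurve.Period CongruenceSubgroup
open scoped MatrixGroups Manifold Real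

namespace Fermat.Agent.H65.MWDiv

open Fermat.Agent.H23.EsA Fermat.Agent.H84.MWDiv

/-! ### Elements of small trace -/

/-- Elements of `SL(2, ℤ)` of trace `-1, 0, 1` have order dividing `12`. -/
theorem uni_sl2_pow_twelve (A : SL(2, ℤ)) (h : (A 0 0 + A 1 1) ^ 2 < 4) : A ^ 12 = 1 := by
  have hdet : A 0 0 * A 1 1 - A 0 1 * A 1 0 = 1 := by
    have := A.det_coe
    rwa [Matrix.det_fin_two] at this
  obtain ⟨M, hM⟩ : ∃ M : Matrix (Fin 2) (Fin 2) ℤ, M = (A : Matrix (Fin 2) (Fin 2) ℤ) :=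
    ⟨_, rfl⟩
  have hdet' : M 0 0 * M 1 1 - M 0 1 * M 1 0 = 1 := by rw [hM]; exact hdet
  have h' : (M 0 0 + M 1 1) ^ 2 < 4 := by rw [hM]; exact h
  obtain ⟨t, ht⟩ : ∃ t : ℤ, t = M 0 0 + M 1 1 := ⟨_, rfl⟩
  have hCH : M * M = t • M - 1 := by
    ext i j
    fin_cases i <;> fin_cases j
    · show (M * M) 0 0 = (t • M - 1) 0 0
      rw [Matrix.mul_apply, Fin.sum_univ_two, Matrix.sub_apply, Matrix.smul_apply,
        Matrix.one_apply_eq, smul_eq_mul, ht]
      linear_combination (-1 : ℤ) * hdet'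
    · show (M * M) 0 1 = (t • M - 1) 0 1
      rw [Matrix.mul_apply, Fin.sum_univ_two, Matrix.sub_apply, Matrix.smul_apply,
        Matrix.one_apply_ne (by decide), smul_eq_mul, ht]
      ring
    · show (M * M) 1 0 = (t • M - 1) 1 0
      rw [Matrix.mul_apply, Fin.sum_univ_two, Matrix.sub_apply, Matrix.smul_apply,
        Matrix.one_apply_ne (by decide), smul_eq_mul, ht]
      ring
    · show (M * M) 1 1 = (t • M - 1) 1 1
      rw [Matrix.mul_apply, Fin.sum_univ_two, Matrix.sub_apply, Matrix.smul_apply,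
        Matrix.one_apply_eq, smul_eq_mul, ht]
      linear_combination (-1 : ℤ) * hdet'
  rw [← ht] at h'
  have ht1 : -2 < t := by nlinarith
  have ht2 : t < 2 := by nlinarith
  have key : M ^ 12 = 1 := by
    interval_cases t
    · have h2 : M * M = - M - 1 := by rw [hCH]; simp
      have h3 : M ^ 3 = 1 := by
        rw [pow_succ, pow_two, h2, sub_mul, neg_mul, h2, one_mul]; abel
      rw [show 12 = 3 * 4 from rfl, pow_mul, h3, one_pow]
    · have h2 : M ^ 2 = -1 := by rw [pow_two, hCH]; simp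
      rw [show 12 = 2 * 6 from rfl, pow_mul, h2]
      exact Even.neg_one_pow ⟨3, rfl⟩
    · have h2 : M * M = M - 1 := by rw [hCH]; simp
      have h3 : M ^ 3 = -1 := by
        rw [pow_succ, pow_two, h2, sub_mul, h2, one_mul]; abel
      rw [show 12 = 3 * 4 from rfl, pow_mul, h3]
      exact Even.neg_one_pow ⟨2, rfl⟩
  apply Subtype.ext
  rw [Matrix.SpecialLinearGroup.coe_pow, Matrix.SpecialLinearGroup.coe_one, ← hM]
  exact key

/-- A parabolic homomorphism to `ℂ` kills every element of trace of absolute value `≤ 2`. -/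
theorem uni_parabolic_kills {N : ℕ} (P : Additive ↥(Gamma0 N) →+ ℂ)
    (hP : IsParabolicHom (Gamma0 N) P) (γ : ↥(Gamma0 N))
    (hγ : |((γ : SL(2, ℤ)) 0 0 + (γ : SL(2, ℤ)) 1 1 : ℤ)| ≤ 2) : P (Additive.ofMul γ) = 0 := by
  have h4 : ((γ : SL(2, ℤ)) 0 0 + (γ : SL(2, ℤ)) 1 1 : ℤ) ^ 2 ≤ 4 := by
    have := abs_le.mp hγ
    nlinarith
  rcases eq_or_lt_of_le h4 with h | h
  · apply hP γ
    rw [Matrix.trace_fin_two]
    exact h
  · have h12 : γ ^ 12 = 1 := by
      apply Subtype.ext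
      rw [Subgroup.coe_pow, uni_sl2_pow_twelve _ h]
      rfl
    have h1 : P (Additive.ofMul (γ ^ 12)) = 12 • P (Additive.ofMul γ) := by
      rw [ofMul_pow, map_nsmul]
    rw [h12, ofMul_one, map_zero] at h1
    have h2 : (12 : ℂ) * P (Additive.ofMul γ) = 0 := by
      have h5 : (12 : ℕ) • P (Additive.ofMul γ) = (12 : ℂ) * P (Additive.ofMul γ) := by
        rw [nsmul_eq_mul]
        norm_num
      rw [← h5]
      exact h1.symm
    rcases mul_eq_zero.mp h2 with h3 | h3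
    · norm_num at h3
    · exact h3

/-! ### The real homomorphism `log ‖χ‖` -/

/-- `γ ↦ log ‖χ γ‖`. -/
def logAbs {N : ℕ} (χ : Char0 N) : Additive ↥(Gamma0 N) →+ ℝ where
  toFun γ := Real.log ‖((χ (Additive.toMul γ) : ℂˣ) : ℂ)‖
  map_zero' := by simp
  map_add' γ δ := by
    show Real.log ‖((χ (Additive.toMul γ * Additive.toMul δ) : ℂˣ) : ℂ)‖ = _
    rw [map_mul, Units.val_mul, norm_mul,
      Real.log_mul (norm_ne_zero_iff.mpr (Units.ne_zero _)) (norm_ne_zero_iff.mpr (Units.ne_zero _))]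

theorem logAbs_apply {N : ℕ} (χ : Char0 N) (γ : ↥(Gamma0 N)) :
    logAbs χ (Additive.ofMul γ) = Real.log ‖((χ γ : ℂˣ) : ℂ)‖ := rfl

theorem logAbs_parabolic {N : ℕ} {χ : Char0 N} (hχ : IsParEllTrivial N χ) :
    IsParabolicHom (Gamma0 N) (logAbs χ) := by
  intro γ hγ
  rw [Matrix.trace_fin_two] at hγ
  have h1 : |((γ : SL(2, ℤ)) 0 0 + (γ : SL(2, ℤ)) 1 1 : ℤ)| ≤ 2 := by
    rw [abs_le]
    constructor <;> nlinarith
  rw [logAbs_apply, hχ γ h1]
  simp

/-! ### The character `exp (i P)` -/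

/-- The character `γ ↦ exp (i P γ)`. -/
def expChar {N : ℕ} (P : Additive ↥(Gamma0 N) →+ ℂ) : Char0 N where
  toFun γ := Units.mk0 (Complex.exp (Complex.I * P (Additive.ofMul γ))) (Complex.exp_ne_zero _)
  map_one' := by
    ext
    simp
  map_mul' γ δ := by
    ext
    simp [ofMul_mul, mul_add, Complex.exp_add]

theorem expChar_apply {N : ℕ} (P : Additive ↥(Gamma0 N) →+ ℂ) (γ : ↥(Gamma0 N)) :
    ((expChar P γ : ℂˣ) : ℂ) = Complex.exp (Complex.I * P (Additive.ofMul γ)) := rfl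

theorem expChar_parEllTrivial {N : ℕ} (P : Additive ↥(Gamma0 N) →+ ℂ)
    (hP : IsParabolicHom (Gamma0 N) P) : IsParEllTrivial N (expChar P) := by
  intro γ hγ
  ext
  rw [expChar_apply, uni_parabolic_kills P hP γ hγ]
  simp

theorem norm_expChar {N : ℕ} (P : Additive ↥(Gamma0 N) →+ ℂ) (γ : ↥(Gamma0 N)) :
    ‖((expChar P γ : ℂˣ) : ℂ)‖ = Real.exp (-(P (Additive.ofMul γ)).im) := by
  rw [expChar_apply, Complex.norm_exp]
  congr 1
  simp

/-! ### The Eichler integral -/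

/-- The Eichler integral of a cusp form, with its periods. -/
theorem uni_exists_primitive (N : ℕ) [NeZero N] (η : CuspForm (Gamma0 N) 2) :
    ∃ Φ : ℍ → ℂ, HasEquivariantPrimitive N η Φ ∧
      ∀ (γ : ↥(Gamma0 N)) (z : ℍ),
        Φ ((γ : SL(2, ℤ)) • z) - Φ z = periodMap N η (Additive.ofMul γ) := by
  obtain ⟨F, hF⟩ := Fermat.Agent.H63.exists_hasEquivariantPrimitive N η
  obtain ⟨F₀, h₀, hpm⟩ := periodMap_def N η hF
  refine ⟨F₀, h₀, fun γ z => ?_⟩
  rw [hpm, IsEquivariantPrimitive.periodHom_apply]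
  exact h₀.2.2.1.sub_eq_period γ z

/-- Holomorphy is preserved by the action of `SL(2, ℤ)`. -/
theorem uni_mdiff_comp_smul {f : ℍ → ℂ} (hf : MDiff f) (γ : SL(2, ℤ)) :
    MDiff (fun z : ℍ => f (γ • z)) := by
  have h1 : MDiff (fun z : ℍ => ((γ : GL (Fin 2) ℝ)) • z) :=
    mdifferentiable_smul (g := (γ : GL (Fin 2) ℝ)) (by simp)
  exact hf.comp h1

/-! ### Twisting a multiplicative function by a nowhere vanishing one -/

/-- Conjugates of `T ^ w` have trace `2`. -/
theorem uni_trace_conj_T (δ : SL(2, ℤ)) (w : ℕ) :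
    |((δ * ModularGroup.T ^ (w : ℤ) * δ⁻¹ : SL(2, ℤ)) 0 0 +
      (δ * ModularGroup.T ^ (w : ℤ) * δ⁻¹ : SL(2, ℤ)) 1 1 : ℤ)| ≤ 2 := by
  have h1 : ((δ * ModularGroup.T ^ (w : ℤ) * δ⁻¹ : SL(2, ℤ)) 0 0 +
      (δ * ModularGroup.T ^ (w : ℤ) * δ⁻¹ : SL(2, ℤ)) 1 1 : ℤ) =
      ((δ * ModularGroup.T ^ (w : ℤ) * δ⁻¹ : SL(2, ℤ)) : Matrix (Fin 2) (Fin 2) ℤ).trace := by
    rw [Matrix.trace_fin_two]
  rw [h1, Matrix.SpecialLinearGroup.coe_mul, Matrix.SpecialLinearGroup.coe_mul,
    Matrix.trace_mul_comm, ← Matrix.mul_assoc, ← Matrix.SpecialLinearGroup.coe_mul,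
    inv_mul_cancel, Matrix.SpecialLinearGroup.coe_one, Matrix.one_mul, ModularGroup.coe_T_zpow]
  simp [Matrix.trace_fin_two]

/-- Invariance under `T ^ w` at a cusp of width `w`, for a function with a parabolic-elliptic
trivial character. -/
theorem uni_periodic_at_cusp {N : ℕ} {E : ℍ → ℂ} {ψ : Char0 N} (hEψ : HasCharacter N E ψ)
    (hψ : IsParEllTrivial N ψ) (δ : SL(2, ℤ)) (w : ℕ)
    (hmem : δ * ModularGroup.T ^ (w : ℤ) * δ⁻¹ ∈ Gamma0 N) (z : ℍ) :
    E (δ • (ModularGroup.T ^ w • z)) = E (δ • z) := by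
  have h1 := hEψ ⟨_, hmem⟩ (δ • z)
  rw [hψ ⟨_, hmem⟩ (uni_trace_conj_T δ w)] at h1
  simp only [Units.val_one, one_mul] at h1
  rw [← h1]
  congr 1
  show δ • (ModularGroup.T ^ w • z) = (δ * ModularGroup.T ^ (w : ℤ) * δ⁻¹) • (δ • z)
  rw [zpow_natCast, mul_smul, mul_smul, inv_smul_smul]

/-- The cusp function of a periodic holomorphic function with a nonzero limit at `i∞` is
analytic at `0` and does not vanish there. -/
theorem uni_cuspFunction_unit (w : ℕ) (hw : 0 < w) {G : ℍ → ℂ} (hG : MDiff G)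
    (hper : ∀ z : ℍ, G (ModularGroup.T ^ w • z) = G z) {L : ℂ} (hL0 : L ≠ 0)
    (hL : Tendsto G atImInfty (𝓝 L)) :
    AnalyticAt ℂ (Periodic.cuspFunction (w : ℝ) (G ∘ ofComplex)) 0 ∧
      Periodic.cuspFunction (w : ℝ) (G ∘ ofComplex) 0 ≠ 0 := by
  have hwR : (0 : ℝ) < w := by exact_mod_cast hw
  have hperC := Fermat.Agent.H82.cm_periodic_comp_ofComplex w G hper
  have hhol := Fermat.Agent.H82.cm_eventually_differentiableAt G hG
  have hlimC : Tendsto (G ∘ ofComplex) (comap Complex.im atTop) (𝓝 L) :=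
    hL.comp tendsto_comap_im_ofComplex
  have hbd : BoundedAtFilter (comap Complex.im atTop) (G ∘ ofComplex) := by
    unfold BoundedAtFilter
    exact hlimC.isBigO_one ℝ
  have hdiff0 := Periodic.differentiableAt_cuspFunction_zero hwR hperC hhol hbd
  have hne := Periodic.eventually_differentiableAt_cuspFunction_nhds_ne_zero hwR hperC hhol
  have hev : ∀ᶠ q in 𝓝 (0 : ℂ),
      DifferentiableAt ℂ (Periodic.cuspFunction (w : ℝ) (G ∘ ofComplex)) q := by
    rw [eventually_nhdsWithin_iff] at hne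
    filter_upwards [hne] with q hq
    by_cases hq0 : q = 0
    · rw [hq0]; exact hdiff0
    · exact hq hq0
  refine ⟨Complex.analyticAt_iff_eventually_differentiableAt.mpr hev, ?_⟩
  have hlim2 := Periodic.tendsto_at_I_inf hwR hperC hhol hbd
  haveI : (comap Complex.im atTop).NeBot := by
    apply comap_neBot
    intro s hs
    obtain ⟨a, ha⟩ := mem_atTop_sets.mp hs
    exact ⟨(a : ℂ) * Complex.I, by simpa using ha a le_rfl⟩
  rw [← tendsto_nhds_unique hlimC hlim2]
  exact hL0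

/-- **Twisting.** Multiplying a multiplicative function by a nowhere vanishing holomorphic
function with a parabolic-elliptic trivial character and nonzero limits at the cusps does not
change the divisor. -/
theorem isMultFn_mul {N : ℕ} {D : Divisor ℂ ↥(FC N)} {F : ℍ → ℂ} {χ : Char0 N}
    (hF : IsMultFn N D F χ) {E : ℍ → ℂ} {ψ : Char0 N} (hEd : MDiff E) (hE0 : ∀ z, E z ≠ 0)
    (hEψ : HasCharacter N E ψ) (hψ : IsParEllTrivial N ψ)
    (hElim : ∀ δ : SL(2, ℤ), ∃ L : ℂ, L ≠ 0 ∧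
      Tendsto (fun z : ℍ => E (δ • z)) atImInfty (𝓝 L)) :
    IsMultFn N D (F * E) (χ * ψ) := by
  obtain ⟨hFd, hF0, hFχ, hχ, hFg, hFpt, hFcusp⟩ := hF
  refine ⟨hFd.mul hEd, ?_, ?_, ?_, ?_, ?_, ?_⟩
  · -- nonzero
    obtain ⟨z, hz⟩ : ∃ z, F z ≠ 0 := by
      by_contra h
      push Not at h
      exact hF0 (funext h)
    intro h
    have h1 := congrFun h z
    simp only [Pi.mul_apply, Pi.zero_apply] at h1
    rcases mul_eq_zero.mp h1 with h2 | h2
    · exact hz h2
    · exact hE0 z h2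
  · -- character
    intro γ z
    show F ((γ : SL(2, ℤ)) • z) * E ((γ : SL(2, ℤ)) • z) = (((χ * ψ) γ : ℂˣ) : ℂ) * (F z * E z)
    rw [hFχ γ z, hEψ γ z, MonoidHom.mul_apply, Units.val_mul]
    ring
  · -- parabolic-elliptic trivial
    intro γ hγ
    rw [MonoidHom.mul_apply, hχ γ hγ, hψ γ hγ, one_mul]
  · -- moderate growth
    intro δ
    obtain ⟨M, C, Y, hb⟩ := hFg δ
    obtain ⟨L, -, hL⟩ := hElim δ
    have hev : ∀ᶠ z in atImInfty, ‖E (δ • z)‖ ≤ ‖L‖ + 1 :=
      hL.norm.eventually_le_const (lt_add_one _)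
    obtain ⟨Y', hY'⟩ := (atImInfty_mem _).mp hev
    refine ⟨M, C * (‖L‖ + 1), max Y Y', fun z hz => ?_⟩
    have h1 := hb z (le_trans (le_max_left _ _) hz)
    have h2 : ‖E (δ • z)‖ ≤ ‖L‖ + 1 := hY' z (le_trans (le_max_right _ _) hz)
    show ‖F (δ • z) * E (δ • z)‖ ≤ _
    rw [norm_mul]
    calc ‖F (δ • z)‖ * ‖E (δ • z)‖
        ≤ (C * Real.exp (2 * Real.pi * M * z.im)) * (‖L‖ + 1) :=
          mul_le_mul h1 h2 (norm_nonneg _) (le_trans (norm_nonneg _) h1)
      _ = C * (‖L‖ + 1) * Real.exp (2 * Real.pi * M * z.im) := by ring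
  · -- orders at the points
    intro z₀ v s hv
    rw [← hFpt z₀ v s hv]
    have hfun : (F * E) ∘ ofComplex = (F ∘ ofComplex) * (E ∘ ofComplex) := rfl
    have hFan := Fermat.Agent.H61.analyticAt_comp_ofComplex hFd z₀
    have hEan := Fermat.Agent.H61.analyticAt_comp_ofComplex hEd z₀
    have hE00 : (E ∘ ofComplex) (z₀ : ℂ) ≠ 0 := hE0 _
    have hord : meromorphicOrderAt (E ∘ ofComplex) (z₀ : ℂ) = 0 := by
      rw [hEan.meromorphicOrderAt_eq, hEan.analyticOrderAt_eq_zero.mpr hE00]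
      rfl
    rw [hfun, meromorphicOrderAt_mul hFan.meromorphicAt hEan.meromorphicAt, hord, add_zero]
  · -- orders at the cusps
    intro δ v w hv
    rw [← hFcusp δ v w hv]
    obtain ⟨hw, hwk, -⟩ := hv
    haveI : NeZero w := ⟨hw.ne'⟩
    have hmem : δ * ModularGroup.T ^ (w : ℤ) * δ⁻¹ ∈ Gamma0 N := (hwk w).mpr dvd_rfl
    obtain ⟨M, C, Y, hb⟩ := hFg δ
    obtain ⟨L, hL0, hL⟩ := hElim δ
    have hHd : MDiff (fun z : ℍ => F (δ • z)) := uni_mdiff_comp_smul hFd δ
    have hGd : MDiff (fun z : ℍ => E (δ • z)) := uni_mdiff_comp_smul hEd δ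
    have hHper : ∀ z : ℍ, (fun z : ℍ => F (δ • z)) (ModularGroup.T ^ w • z) =
        (fun z : ℍ => F (δ • z)) z := fun z => uni_periodic_at_cusp hFχ hχ δ w hmem z
    have hGper : ∀ z : ℍ, (fun z : ℍ => E (δ • z)) (ModularGroup.T ^ w • z) =
        (fun z : ℍ => E (δ • z)) z := fun z => uni_periodic_at_cusp hEψ hψ δ w hmem z
    have hHmero := Fermat.Agent.H82.cm_meromorphicAt_cuspFunction_of_growth w
      (fun z : ℍ => F (δ • z)) hHd hHper M C Y hb
    obtain ⟨hGan, hG0⟩ := uni_cuspFunction_unit w hw hGd hGper hL0 hL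
    have hcongr : Periodic.cuspFunction (w : ℝ) ((fun z : ℍ => (F * E) (δ • z)) ∘ ofComplex)
        =ᶠ[𝓝[≠] 0]
        Periodic.cuspFunction (w : ℝ) ((fun z : ℍ => F (δ • z)) ∘ ofComplex) *
          Periodic.cuspFunction (w : ℝ) ((fun z : ℍ => E (δ • z)) ∘ ofComplex) := by
      filter_upwards [self_mem_nhdsWithin] with q hq
      have hq0 : q ≠ 0 := hq
      rw [Pi.mul_apply, Periodic.cuspFunction_eq_of_nonzero _ _ hq0,
        Periodic.cuspFunction_eq_of_nonzero _ _ hq0, Periodic.cuspFunction_eq_of_nonzero _ _ hq0]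
      rfl
    have hord : meromorphicOrderAt
        (Periodic.cuspFunction (w : ℝ) ((fun z : ℍ => E (δ • z)) ∘ ofComplex)) 0 = 0 := by
      rw [hGan.meromorphicOrderAt_eq, hGan.analyticOrderAt_eq_zero.mpr hG0]
      rfl
    unfold cuspOrd
    rw [meromorphicOrderAt_congr hcongr, meromorphicOrderAt_mul hHmero hGan.meromorphicAt, hord,
      add_zero]

/-! ### The main theorem -/

/-- `exp (i Φ)` is holomorphic when `Φ` is a primitive. -/
theorem uni_mdiff_exp {Φ : ℍ → ℂ} {g : ℍ → ℂ}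
    (hΦ : ∀ τ : ℍ, HasDerivAt (Φ ∘ ofComplex) (g τ) ↑τ) :
    MDiff (fun z : ℍ => Complex.exp (Complex.I * Φ z)) := by
  rw [UpperHalfPlane.mdifferentiable_iff]
  intro z hz
  have h1 : DifferentiableAt ℂ (Φ ∘ ofComplex) z := (hΦ ⟨z, hz⟩).differentiableAt
  have h2 : DifferentiableAt ℂ (fun x : ℂ => Complex.exp (Complex.I * (Φ ∘ ofComplex) x)) z :=
    (h1.const_mul Complex.I).cexp
  exact h2.differentiableWithinAt

/-- **MW-A1-UNI.** The character of a multiplicative function can be made unitary. -/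
theorem unitary (N : ℕ) [NeZero N] (hRP : RealPeriodStatement N) : UnitaryStatement N := by
  intro D F χ hF
  obtain ⟨η, hη⟩ := hRP (logAbs χ) (logAbs_parabolic hF.2.2.2.1)
  obtain ⟨Φ, hΦ, hΦper⟩ := uni_exists_primitive N η
  have hPpar : IsParabolicHom (Gamma0 N) (periodMap N η) :=
    mem_parabolicHoms_iff.mp (Fermat.Agent.H97.periodMap_mem_parabolicHoms N η)
  have hEd : MDiff (fun z : ℍ => Complex.exp (Complex.I * Φ z)) := uni_mdiff_exp hΦ.1
  have hE0 : ∀ z : ℍ, (fun z : ℍ => Complex.exp (Complex.I * Φ z)) z ≠ 0 :=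
    fun z => Complex.exp_ne_zero _
  have hEψ : HasCharacter N (fun z : ℍ => Complex.exp (Complex.I * Φ z))
      (expChar (periodMap N η)) := by
    intro γ z
    show Complex.exp (Complex.I * Φ ((γ : SL(2, ℤ)) • z)) =
      ((expChar (periodMap N η) γ : ℂˣ) : ℂ) * Complex.exp (Complex.I * Φ z)
    rw [expChar_apply, ← Complex.exp_add, ← hΦper γ z]
    congr 1
    ring
  have hElim : ∀ δ : SL(2, ℤ), ∃ L : ℂ, L ≠ 0 ∧
      Tendsto (fun z : ℍ => (fun z : ℍ => Complex.exp (Complex.I * Φ z)) (δ • z)) atImInfty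
        (𝓝 L) := by
    intro δ
    obtain ⟨L₀, hL₀⟩ := hΦ.2.2.2 δ
    refine ⟨Complex.exp (Complex.I * L₀), Complex.exp_ne_zero _, ?_⟩
    have hc : Continuous (fun x : ℂ => Complex.exp (Complex.I * x)) := by fun_prop
    exact (hc.tendsto L₀).comp hL₀
  refine ⟨F * (fun z : ℍ => Complex.exp (Complex.I * Φ z)), χ * expChar (periodMap N η),
    isMultFn_mul hF hEd hE0 hEψ (expChar_parEllTrivial _ hPpar) hElim, ?_⟩
  intro γ
  rw [MonoidHom.mul_apply, Units.val_mul, norm_mul, norm_expChar, hη γ, logAbs_apply,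
    Real.exp_neg, Real.exp_log (norm_pos_iff.mpr (Units.ne_zero _))]
  exact mul_inv_cancel₀ (norm_ne_zero_iff.mpr (Units.ne_zero _))

end Fermat.Agent.H65.MWDiv
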